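import Mathlib

/-!
# S16 / WP ALG, part 1 (helper77): abstract duality

`L`, `T` finite free `ℤ`-modules with a bilinear pairing `B : T × L → ℤ` which is
non-degenerate on both sides and saturated on the `L`-side.  Then every linear form on `T` is
`B (·, f)` for some `f : L`.
-/

set_option autoImplicit false

namespace Fermat.Agent.S16.H77

open Module

section Index

variable {H : Type*} [AddCommGroup H] [Module.Free ℤ H] [Module.Finite ℤ H]

/-- A submodule of full rank of a finite free `ℤ`-module has finite index: some positive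
multiple of every vector lies in it. -/
theorem exists_nsmul_mem_of_finrank_eq (N : Submodule ℤ H)
    (hN : finrank ℤ N = finrank ℤ H) : ∃ d : ℕ, d ≠ 0 ∧ ∀ x : H, d • x ∈ N := by
  classical
  let b := Module.Free.chooseBasis ℤ H
  obtain ⟨n, snf⟩ := N.smithNormalForm b
  have h1 : finrank ℤ N = n := by
    rw [Module.finrank_eq_card_basis snf.bN]
    simp
  have h2 : finrank ℤ H = Fintype.card (Module.Free.ChooseBasisIndex ℤ H) :=
    Module.finrank_eq_card_chooseBasisIndex ℤ H
  have h3 : N.toAddSubgroup.index ≠ 0 := by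
    rw [snf.toAddSubgroup_index_ne_zero_iff, ← h1, ← h2, hN]
  refine ⟨N.toAddSubgroup.index, h3, fun x => ?_⟩
  have := N.toAddSubgroup.nsmul_index_mem x
  exact this

end Index

section Dual

variable {L T : Type*} [AddCommGroup L] [AddCommGroup T]
  [Module.Free ℤ L] [Module.Finite ℤ L] [Module.Free ℤ T] [Module.Finite ℤ T]

/-- **Abstract duality.** -/
theorem exists_eq_of_pairing (B : T →ₗ[ℤ] L →ₗ[ℤ] ℤ)
    (hL : ∀ g : L, (∀ t, B t g = 0) → g = 0)
    (hT : ∀ t : T, (∀ g, B t g = 0) → t = 0)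
    (hsat : ∀ (g : L) (d : ℕ), d ≠ 0 → (∀ t, (d : ℤ) ∣ B t g) → ∃ g' : L, g = d • g')
    (ψ : T →ₗ[ℤ] ℤ) : ∃ f : L, ∀ t, B t f = ψ t := by
  classical
  have hΦ : Function.Injective B.flip := by
    rw [injective_iff_map_eq_zero]
    intro g hg
    exact hL g fun t => by simpa using LinearMap.congr_fun hg t
  have hΨ : Function.Injective B := by
    rw [injective_iff_map_eq_zero]
    intro t ht
    exact hT t fun g => by simpa using LinearMap.congr_fun ht g
  have r1 : finrank ℤ L ≤ finrank ℤ (T →ₗ[ℤ] ℤ) :=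
    LinearMap.finrank_le_finrank_of_injective hΦ
  have r2 : finrank ℤ T ≤ finrank ℤ (L →ₗ[ℤ] ℤ) :=
    LinearMap.finrank_le_finrank_of_injective hΨ
  have r3 : finrank ℤ (T →ₗ[ℤ] ℤ) = finrank ℤ T := by
    rw [Module.finrank_linearMap]; simp
  have r4 : finrank ℤ (L →ₗ[ℤ] ℤ) = finrank ℤ L := by
    rw [Module.finrank_linearMap]; simp
  have hrank : finrank ℤ (LinearMap.range B.flip) = finrank ℤ (T →ₗ[ℤ] ℤ) := by
    rw [LinearMap.finrank_range_of_inj hΦ]
    omega
  obtain ⟨d, hd, hmem⟩ := exists_nsmul_mem_of_finrank_eq (LinearMap.range B.flip) hrank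
  obtain ⟨g, hg⟩ := hmem ψ
  have hg' : ∀ t, B t g = (d : ℤ) * ψ t := by
    intro t
    have := LinearMap.congr_fun hg t
    simpa using this
  obtain ⟨g', rfl⟩ := hsat g d hd fun t => ⟨ψ t, hg' t⟩
  refine ⟨g', fun t => ?_⟩
  have h := hg' t
  rw [map_nsmul, nsmul_eq_mul] at h
  have hd' : (d : ℤ) ≠ 0 := by exact_mod_cast hd
  exact mul_left_cancel₀ hd' h

end Dual

end Fermat.Agent.S16.H77
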