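import Mathlib
import Fermat.Agent.S16.H77.AlgDual

/-!
# S16 / WP ALG, part 2 (helper77): the abstract Hecke-algebra argument

Abstract setting:
* `L` a finite free `ℤ`-module ("the lattice of cusp forms with integral `q`-expansion"),
* `T` a commutative ring, finite free over `ℤ`, acting faithfully on `L` via `act`,
* `φ : ℤ[X_ℓ : ℓ prime] → T` a surjective ring homomorphism (`X_ℓ ↦ T_ℓ` resp. `U_p`),
* `a k : L → ℤ` the coefficient functionals (`k ≥ 1`), with the `q`-expansion principle `hq`,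
  saturation `hsat` and the Hecke formulas `hU`, `hT`,
* `s : ℕ → ℤ` a sequence satisfying the Hecke recursions for the eigenvalues `eis`
  (`s = σ'`, `eis ℓ = 1 + ℓ` for `ℓ ≠ p`, `eis p = 1`).

Conclusion (`card_quotient_eq`): if
* (UB') every `f : L` with `a_k(f) ≡ s k mod m` (`k ≥ 1`, `m ≥ 1`) forces `m ∣ n`, and
* (LB') there is `h : L` with `a_k(h) ≡ c s k mod n`, `c` prime to `n`,
then `|T / φ(I)| = n` for `I = ker (X_ℓ ↦ eis ℓ)`.
-/

set_option autoImplicit false

noncomputable section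

namespace Fermat.Agent.S16.H77

open MvPolynomial

/-- The abstract data of the Hecke algebra acting on the lattice. -/
structure HeckeData (p : ℕ) (L T : Type*) [AddCommGroup L] [CommRing T] where
  /-- evaluation of Hecke polynomials -/
  φ : MvPolynomial Nat.Primes ℤ →+* T
  φ_surj : Function.Surjective φ
  /-- the action on the lattice -/
  act : T →+* Module.End ℤ L
  act_inj : Function.Injective act
  /-- coefficient functionals -/
  a : ℕ → L →ₗ[ℤ] ℤ
  /-- `q`-expansion principle -/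
  hq : ∀ g : L, (∀ k : ℕ, 1 ≤ k → a k g = 0) → g = 0
  /-- saturation -/
  hsat : ∀ (g : L) (d : ℕ), d ≠ 0 → (∀ k : ℕ, 1 ≤ k → (d : ℤ) ∣ a k g) → ∃ g' : L, g = d • g'
  /-- the operator `U_p` -/
  hU : ∀ ℓ : Nat.Primes, (ℓ : ℕ) = p → ∀ (g : L) (k : ℕ), 1 ≤ k →
    a k (act (φ (X ℓ)) g) = a (k * p) g
  /-- the operators `T_ℓ`, `ℓ ≠ p` -/
  hT : ∀ ℓ : Nat.Primes, (ℓ : ℕ) ≠ p → ∀ (g : L) (k : ℕ), 1 ≤ k →
    a k (act (φ (X ℓ)) g) =
      a (k * ℓ) g + if (ℓ : ℕ) ∣ k then ((ℓ : ℕ) : ℤ) * a (k / ℓ) g else 0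

/-- The abstract Eisenstein eigen-system: eigenvalues `eis` and coefficient sequence `s`. -/
structure EisData (p : ℕ) where
  eis : Nat.Primes → ℤ
  s : ℕ → ℤ
  eis_U : ∀ ℓ : Nat.Primes, (ℓ : ℕ) = p → eis ℓ = 1
  eis_T : ∀ ℓ : Nat.Primes, (ℓ : ℕ) ≠ p → eis ℓ = 1 + ((ℓ : ℕ) : ℤ)
  s_one : s 1 = 1
  s_U : ∀ k : ℕ, 1 ≤ k → s (k * p) = s k
  s_T : ∀ ℓ : ℕ, ℓ.Prime → ℓ ≠ p → ∀ k : ℕ, 1 ≤ k →
    s (k * ℓ) + (if ℓ ∣ k then (ℓ : ℤ) * s (k / ℓ) else 0) = (1 + (ℓ : ℤ)) * s k

section Main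

variable {p : ℕ} {L T : Type*} [AddCommGroup L] [CommRing T]
variable (D : HeckeData p L T) (E : EisData p)

/-- evaluation at the Eisenstein eigen-system -/
def EisData.ev : MvPolynomial Nat.Primes ℤ →+* ℤ :=
  (MvPolynomial.aeval (R := ℤ) E.eis).toRingHom

@[simp] theorem EisData.ev_X (ℓ : Nat.Primes) : E.ev (X ℓ) = E.eis ℓ := by
  simp [EisData.ev]

@[simp] theorem EisData.ev_C (z : ℤ) : E.ev (C z) = z := by
  simp [EisData.ev]

/-- `g` has coefficients congruent to `c • s` modulo `M`. -/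
def Cong (M c : ℤ) (g : L) : Prop := ∀ k : ℕ, 1 ≤ k → M ∣ D.a k g - c * E.s k

theorem HeckeData.act_C (z : ℤ) (g : L) : D.act (D.φ (C z)) g = z • g := by
  have h1 : (C z : MvPolynomial Nat.Primes ℤ) = ((z : ℤ) : MvPolynomial Nat.Primes ℤ) :=
    eq_intCast (C : ℤ →+* MvPolynomial Nat.Primes ℤ) z
  rw [h1, map_intCast, map_intCast]
  simp

theorem cong_X {M c : ℤ} {g : L} (ℓ : Nat.Primes) (h : Cong D E M c g) :
    Cong D E M (c * E.eis ℓ) (D.act (D.φ (X ℓ)) g) := by
  intro k hk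
  by_cases hℓ : (ℓ : ℕ) = p
  · rw [D.hU ℓ hℓ g k hk, E.eis_U ℓ hℓ, mul_one, ← E.s_U k hk]
    exact h (k * p) (Nat.mul_pos hk (hℓ ▸ ℓ.2.pos))
  · rw [D.hT ℓ hℓ g k hk, E.eis_T ℓ hℓ]
    have hs := E.s_T ℓ ℓ.2 hℓ k hk
    have h1 := h (k * ℓ) (Nat.mul_pos hk ℓ.2.pos)
    by_cases hd : (ℓ : ℕ) ∣ k
    · rw [if_pos hd] at hs ⊢
      have hk' : 1 ≤ k / ℓ := Nat.div_pos (Nat.le_of_dvd hk hd) ℓ.2.pos
      have h2 := h (k / ℓ) hk'
      have : D.a (k * ℓ) g + ((ℓ : ℕ) : ℤ) * D.a (k / ℓ) g - c * (1 + ((ℓ : ℕ) : ℤ)) * E.s k =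
          (D.a (k * ℓ) g - c * E.s (k * ℓ)) +
            ((ℓ : ℕ) : ℤ) * (D.a (k / ℓ) g - c * E.s (k / ℓ)) := by
        have : c * (1 + ((ℓ : ℕ) : ℤ)) * E.s k =
            c * (E.s (k * ℓ) + ((ℓ : ℕ) : ℤ) * E.s (k / ℓ)) := by rw [hs]; ring
        rw [this]; ring
      rw [this]
      exact dvd_add h1 (Dvd.dvd.mul_left h2 _)
    · rw [if_neg hd] at hs ⊢
      rw [add_zero] at hs ⊢
      have : c * (1 + ((ℓ : ℕ) : ℤ)) * E.s k = c * E.s (k * ℓ) := by rw [hs]; ring
      rw [this]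
      exact h1

theorem cong_poly (M : ℤ) (R : MvPolynomial Nat.Primes ℤ) :
    ∀ (c : ℤ) (g : L), Cong D E M c g → Cong D E M (c * E.ev R) (D.act (D.φ R) g) := by
  induction R using MvPolynomial.induction_on with
  | C z =>
    intro c g h k hk
    rw [D.act_C, E.ev_C, map_smul, smul_eq_mul]
    have := h k hk
    have e : z * D.a k g - c * z * E.s k = z * (D.a k g - c * E.s k) := by ring
    rw [e]
    exact Dvd.dvd.mul_left this _
  | add R R' hR hR' =>
    intro c g h k hk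
    have h1 := hR c g h k hk
    have h2 := hR' c g h k hk
    rw [map_add, map_add, LinearMap.add_apply, map_add, map_add]
    have e : D.a k (D.act (D.φ R) g) + D.a k (D.act (D.φ R') g) - c * (E.ev R + E.ev R') * E.s k =
        (D.a k (D.act (D.φ R) g) - c * E.ev R * E.s k) +
          (D.a k (D.act (D.φ R') g) - c * E.ev R' * E.s k) := by ring
    rw [e]
    exact dvd_add h1 h2
  | mul_X R ℓ hR =>
    intro c g h
    have h1 := cong_X D E ℓ h
    have h2 := hR _ _ h1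
    have e1 : D.act (D.φ (R * X ℓ)) g = D.act (D.φ R) (D.act (D.φ (X ℓ)) g) := by
      rw [map_mul, map_mul]
      rfl
    have e2 : c * E.ev (R * X ℓ) = c * E.eis ℓ * E.ev R := by
      rw [map_mul, E.ev_X]; ring
    rw [e1, e2]
    exact h2

/-- Step (α): a Hecke polynomial acting as zero has Eisenstein value divisible by `n`. -/
theorem dvd_ev_of_map_eq_zero {n : ℕ}
    (hLB : ∃ h : L, ∃ c : ℤ, IsCoprime c (n : ℤ) ∧ Cong D E (n : ℤ) c h)
    (R : MvPolynomial Nat.Primes ℤ) (hR : D.φ R = 0) : (n : ℤ) ∣ E.ev R := by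
  obtain ⟨h, c, hc, hh⟩ := hLB
  have h1 := cong_poly D E (n : ℤ) R c h hh 1 le_rfl
  rw [hR, map_zero, LinearMap.zero_apply, map_zero, E.s_one, mul_one, zero_sub, dvd_neg] at h1
  exact hc.symm.dvd_of_dvd_mul_left h1

/-- Step (A4): the Hecke polynomial `R_k` with `a₁(R_k g) = a_k(g)` and Eisenstein value
`s k`. -/
theorem exists_heckePoly (k : ℕ) (hk : 1 ≤ k) :
    ∃ R : MvPolynomial Nat.Primes ℤ,
      (∀ g : L, D.a 1 (D.act (D.φ R) g) = D.a k g) ∧ E.ev R = E.s k := by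
  induction k using Nat.strong_induction_on with
  | _ k ih =>
    rcases Nat.eq_or_lt_of_le hk with h1 | h1
    · subst h1
      refine ⟨1, fun g => ?_, ?_⟩
      · rw [map_one, map_one]; rfl
      · rw [map_one, E.s_one]
    · -- `k ≥ 2`
      have hk1 : k ≠ 1 := by omega
      set ℓ := k.minFac with hℓdef
      have hℓ : ℓ.Prime := Nat.minFac_prime hk1
      obtain ⟨k', hk'⟩ : ℓ ∣ k := Nat.minFac_dvd k
      have hk'pos : 1 ≤ k' := by
        rcases Nat.eq_zero_or_pos k' with h0 | h0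
        · rw [h0, mul_zero] at hk'; omega
        · exact h0
      have hk'lt : k' < k := by
        rw [hk']
        have := hℓ.two_le
        nlinarith
      have hkk : k = k' * ℓ := by rw [hk', mul_comm]
      obtain ⟨R', hR'a, hR'e⟩ := ih k' hk'lt hk'pos
      let P : Nat.Primes := ⟨ℓ, hℓ⟩
      have eX : ∀ g : L, D.act (D.φ (R' * X P)) g = D.act (D.φ R') (D.act (D.φ (X P)) g) := by
        intro g
        rw [map_mul, map_mul]
        rfl
      by_cases hℓp : ℓ = p
      · refine ⟨R' * X P, fun g => ?_, ?_⟩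
        · rw [eX, hR'a, D.hU P hℓp g k' hk'pos, hkk, hℓp]
        · rw [map_mul, E.ev_X, hR'e, E.eis_U P hℓp, mul_one, hkk, hℓp, E.s_U k' hk'pos]
      · have hs := E.s_T ℓ hℓ hℓp k' hk'pos
        by_cases hd : ℓ ∣ k'
        · have hk''pos : 1 ≤ k' / ℓ := Nat.div_pos (Nat.le_of_dvd hk'pos hd) hℓ.pos
          have hk''lt : k' / ℓ < k := lt_of_le_of_lt (Nat.div_le_self _ _) hk'lt
          obtain ⟨R'', hR''a, hR''e⟩ := ih (k' / ℓ) hk''lt hk''pos
          rw [if_pos hd] at hs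
          refine ⟨R' * X P - C (ℓ : ℤ) * R'', fun g => ?_, ?_⟩
          · have e2 : D.act (D.φ (C (ℓ : ℤ) * R'')) g = (ℓ : ℤ) • D.act (D.φ R'') g := by
              rw [mul_comm, map_mul, map_mul]
              change D.act (D.φ R'') (D.act (D.φ (C (ℓ : ℤ))) g) = _
              rw [D.act_C, map_smul]
            rw [map_sub, map_sub, LinearMap.sub_apply, map_sub, eX, hR'a, e2, map_smul, hR''a,
              D.hT P hℓp g k' hk'pos, if_pos hd, smul_eq_mul, hkk]
            simp only [P]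
            ring
          · rw [map_sub, map_mul, map_mul, E.ev_X, E.ev_C, hR'e, hR''e, E.eis_T P hℓp, hkk]
            simp only [P]
            linarith
        · rw [if_neg hd, add_zero] at hs
          refine ⟨R' * X P, fun g => ?_, ?_⟩
          · rw [eX, hR'a, D.hT P hℓp g k' hk'pos, if_neg hd, add_zero, hkk]
          · rw [map_mul, E.ev_X, hR'e, E.eis_T P hℓp, hkk]
            simp only [P]
            linarith

/-- The pairing `T × L → ℤ`, `(t, g) ↦ a₁(t g)`. -/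
def HeckeData.pairing : T →ₗ[ℤ] L →ₗ[ℤ] ℤ where
  toFun t := (D.a 1).comp (D.act t)
  map_add' t t' := by
    ext g
    simp
  map_smul' z t := by
    ext g
    simp

@[simp] theorem HeckeData.pairing_apply (t : T) (g : L) :
    D.pairing t g = D.a 1 (D.act t g) := rfl

/-- Step (A5): duality. Every linear form on `T` is `t ↦ a₁(t f)` for some `f : L`. -/
theorem exists_dual [Module.Free ℤ L] [Module.Finite ℤ L] [Module.Free ℤ T] [Module.Finite ℤ T]
    (ψ : T →ₗ[ℤ] ℤ) : ∃ f : L, ∀ t : T, D.a 1 (D.act t f) = ψ t := by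
  -- the Hecke polynomials
  have hR : ∀ k : ℕ, 1 ≤ k → ∃ R : MvPolynomial Nat.Primes ℤ,
      ∀ g : L, D.a 1 (D.act (D.φ R) g) = D.a k g := by
    intro k hk
    -- the eigen-system plays no role here: use the trivial choice `exists_heckePoly` provides
    -- for any `EisData`; we only need the first component, which does not depend on `E`.
    induction k using Nat.strong_induction_on with
    | _ k ih =>
      rcases Nat.eq_or_lt_of_le hk with h1 | h1
      · subst h1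
        exact ⟨1, fun g => by rw [map_one, map_one]; rfl⟩
      · have hk1 : k ≠ 1 := by omega
        set ℓ := k.minFac with hℓdef
        have hℓ : ℓ.Prime := Nat.minFac_prime hk1
        obtain ⟨k', hk'⟩ : ℓ ∣ k := Nat.minFac_dvd k
        have hk'pos : 1 ≤ k' := by
          rcases Nat.eq_zero_or_pos k' with h0 | h0
          · rw [h0, mul_zero] at hk'; omega
          · exact h0
        have hk'lt : k' < k := by
          rw [hk']
          have := hℓ.two_le
          nlinarith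
        have hkk : k = k' * ℓ := by rw [hk', mul_comm]
        obtain ⟨R', hR'a⟩ := ih k' hk'lt hk'pos
        let P : Nat.Primes := ⟨ℓ, hℓ⟩
        have eX : ∀ g : L,
            D.act (D.φ (R' * X P)) g = D.act (D.φ R') (D.act (D.φ (X P)) g) := by
          intro g
          rw [map_mul, map_mul]
          rfl
        by_cases hℓp : ℓ = p
        · exact ⟨R' * X P, fun g => by rw [eX, hR'a, D.hU P hℓp g k' hk'pos, hkk, hℓp]⟩
        · by_cases hd : ℓ ∣ k'
          · have hk''pos : 1 ≤ k' / ℓ := Nat.div_pos (Nat.le_of_dvd hk'pos hd) hℓ.pos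
            have hk''lt : k' / ℓ < k := lt_of_le_of_lt (Nat.div_le_self _ _) hk'lt
            obtain ⟨R'', hR''a⟩ := ih (k' / ℓ) hk''lt hk''pos
            refine ⟨R' * X P - C (ℓ : ℤ) * R'', fun g => ?_⟩
            have e2 : D.act (D.φ (C (ℓ : ℤ) * R'')) g = (ℓ : ℤ) • D.act (D.φ R'') g := by
              rw [mul_comm, map_mul, map_mul]
              change D.act (D.φ R'') (D.act (D.φ (C (ℓ : ℤ))) g) = _
              rw [D.act_C, map_smul]
            rw [map_sub, map_sub, LinearMap.sub_apply, map_sub, eX, hR'a, e2, map_smul, hR''a,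
              D.hT P hℓp g k' hk'pos, if_pos hd, smul_eq_mul, hkk]
            simp only [P]
            ring
          · exact ⟨R' * X P, fun g => by
              rw [eX, hR'a, D.hT P hℓp g k' hk'pos, if_neg hd, add_zero, hkk]⟩
  have key := exists_eq_of_pairing D.pairing ?_ ?_ ?_ ψ
  · obtain ⟨f, hf⟩ := key
    exact ⟨f, fun t => by rw [← hf t]; rfl⟩
  · -- non-degenerate on `L`
    intro g hg
    refine D.hq g fun k hk => ?_
    obtain ⟨R, hRk⟩ := hR k hk
    rw [← hRk g]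
    exact hg (D.φ R)
  · -- non-degenerate on `T`
    intro t ht
    apply D.act_inj
    rw [map_zero]
    ext g
    rw [LinearMap.zero_apply]
    refine D.hq _ fun k hk => ?_
    obtain ⟨R, hRk⟩ := hR k hk
    rw [← hRk (D.act t g)]
    have : D.act (D.φ R) (D.act t g) = D.act t (D.act (D.φ R) g) := by
      have e1 : D.act (D.φ R) (D.act t g) = D.act (D.φ R * t) g := by rw [map_mul]; rfl
      have e2 : D.act t (D.act (D.φ R) g) = D.act (t * D.φ R) g := by rw [map_mul]; rfl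
      rw [e1, e2, mul_comm]
    rw [this]
    exact ht _
  · -- saturation
    intro g d hd hdiv
    refine D.hsat g d hd fun k hk => ?_
    obtain ⟨R, hRk⟩ := hR k hk
    rw [← hRk g]
    exact hdiv (D.φ R)

section Card

variable [Module.Free ℤ L] [Module.Finite ℤ L] [Module.Free ℤ T] [Module.Finite ℤ T]
variable (I : Ideal (MvPolynomial Nat.Primes ℤ)) (hI : ∀ R, R ∈ I ↔ E.ev R = 0)

omit [Module.Free ℤ L] [Module.Finite ℤ L] [Module.Free ℤ T] [Module.Finite ℤ T] in
include hI in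
theorem intCast_ev_mem (R : MvPolynomial Nat.Primes ℤ) (hR : D.φ R = 0) :
    ((E.ev R : ℤ) : T) ∈ Ideal.map D.φ I := by
  have h1 : C (E.ev R) - R ∈ I := by
    rw [hI, map_sub, E.ev_C, sub_self]
  have h2 : D.φ (C (E.ev R) - R) = ((E.ev R : ℤ) : T) := by
    rw [map_sub, hR, sub_zero]
    have : (C (E.ev R) : MvPolynomial Nat.Primes ℤ) = ((E.ev R : ℤ) : MvPolynomial Nat.Primes ℤ) :=
      eq_intCast (C : ℤ →+* MvPolynomial Nat.Primes ℤ) _
    rw [this, map_intCast]
  rw [← h2]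
  exact Ideal.mem_map_of_mem _ h1

include hI in
/-- Key step for (β): a modulus `M ≥ 1` dividing every integer of `J` divides `n`. -/
theorem dvd_of_forall_dvd {n : ℕ}
    (hUB : ∀ m : ℕ, 1 ≤ m → ∀ f : L, Cong D E (m : ℤ) 1 f → m ∣ n)
    (M : ℕ) (hM : 1 ≤ M)
    (hK : ∀ z : ℤ, ((z : ℤ) : T) ∈ Ideal.map D.φ I → (M : ℤ) ∣ z) : M ∣ n := by
  set χ₀ : MvPolynomial Nat.Primes ℤ →+* ZMod M := (Int.castRingHom (ZMod M)).comp E.ev with hχ₀
  have hker : RingHom.ker D.φ ≤ RingHom.ker χ₀ := by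
    intro R hR
    rw [RingHom.mem_ker] at hR ⊢
    have := hK _ (intCast_ev_mem D E I hI R hR)
    rw [hχ₀, RingHom.comp_apply]
    exact (ZMod.intCast_zmod_eq_zero_iff_dvd _ _).mpr this
  set χ : T →+* ZMod M := D.φ.liftOfSurjective D.φ_surj ⟨χ₀, hker⟩ with hχdef
  have hχ : ∀ R, χ (D.φ R) = χ₀ R := fun R =>
    RingHom.liftOfRightInverse_comp_apply D.φ _ _ ⟨χ₀, hker⟩ R
  let χl : T →ₗ[ℤ] ZMod M := χ.toAddMonoidHom.toIntLinearMap
  let castl : ℤ →ₗ[ℤ] ZMod M := (Int.castAddHom (ZMod M)).toIntLinearMap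
  have hsurj : Function.Surjective castl := ZMod.intCast_surjective
  obtain ⟨ψ, hψ⟩ := Module.projective_lifting_property castl χl hsurj
  have hψ' : ∀ t : T, ((ψ t : ℤ) : ZMod M) = χ t := fun t => LinearMap.congr_fun hψ t
  obtain ⟨f, hf⟩ := exists_dual D ψ
  refine hUB M hM f fun k hk => ?_
  obtain ⟨R, hRa, hRe⟩ := exists_heckePoly D E k hk
  rw [one_mul, ← hRa f, hf, ← hRe]
  have h1 : ((ψ (D.φ R) : ℤ) : ZMod M) = ((E.ev R : ℤ) : ZMod M) := by
    rw [hψ', hχ, hχ₀, RingHom.comp_apply]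
    rfl
  have h2 := (ZMod.intCast_eq_intCast_iff_dvd_sub _ _ _).mp h1
  exact (dvd_sub_comm).mp h2

include hI in
/-- Step (β): `n ∈ J`. -/
theorem natCast_mem {n : ℕ} (hn : n ≠ 0)
    (hUB : ∀ m : ℕ, 1 ≤ m → ∀ f : L, Cong D E (m : ℤ) 1 f → m ∣ n) :
    (((n : ℕ) : ℤ) : T) ∈ Ideal.map D.φ I := by
  set J := Ideal.map D.φ I with hJ
  set K : Ideal ℤ := Ideal.comap (Int.castRingHom T) J with hKdef
  have hKmem : ∀ z : ℤ, z ∈ K ↔ ((z : ℤ) : T) ∈ J := fun z => Iff.rfl
  set m := Submodule.IsPrincipal.generator K with hm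
  have hspan : Ideal.span {m} = K := Ideal.span_singleton_generator K
  have hdvd : ∀ z : ℤ, z ∈ K → m ∣ z := by
    intro z hz
    rw [← hspan] at hz
    exact Ideal.mem_span_singleton.mp hz
  have hmK : m ∈ K := Submodule.IsPrincipal.generator_mem K
  by_cases hm0 : m = 0
  · exfalso
    have h1 : (n + 1) ∣ n := by
      refine dvd_of_forall_dvd D E I hI hUB (n + 1) (by omega) fun z hz => ?_
      have := hdvd z ((hKmem z).mpr hz)
      rw [hm0, zero_dvd_iff] at this
      rw [this]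
      exact dvd_zero _
    have := Nat.le_of_dvd (Nat.pos_of_ne_zero hn) h1
    omega
  · have hM : 1 ≤ m.natAbs := Int.natAbs_pos.mpr hm0
    have h1 : m.natAbs ∣ n := by
      refine dvd_of_forall_dvd D E I hI hUB m.natAbs hM fun z hz => ?_
      exact Int.natAbs_dvd.mpr (hdvd z ((hKmem z).mpr hz))
    have h2 : m ∣ (n : ℤ) := Int.natAbs_dvd_natAbs.mp (by simpa using h1)
    obtain ⟨w, hw⟩ := h2
    have : ((n : ℕ) : ℤ) ∈ K := by
      rw [hw]
      exact K.mul_mem_right w hmK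
    exact (hKmem _).mp this

include hI in
/-- **WP ALG, abstract form.** -/
theorem card_quotient_eq {n : ℕ} (hn : n ≠ 0)
    (hUB : ∀ m : ℕ, 1 ≤ m → ∀ f : L, Cong D E (m : ℤ) 1 f → m ∣ n)
    (hLB : ∃ h : L, ∃ c : ℤ, IsCoprime c (n : ℤ) ∧ Cong D E (n : ℤ) c h) :
    Nat.card (T ⧸ Ideal.map D.φ I) = n := by
  set χ₀ : MvPolynomial Nat.Primes ℤ →+* ZMod n := (Int.castRingHom (ZMod n)).comp E.ev with hχ₀
  have hker : RingHom.ker D.φ ≤ RingHom.ker χ₀ := by
    intro R hR
    rw [RingHom.mem_ker] at hR ⊢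
    have := dvd_ev_of_map_eq_zero D E hLB R hR
    rw [hχ₀, RingHom.comp_apply]
    exact (ZMod.intCast_zmod_eq_zero_iff_dvd _ _).mpr this
  set ε : T →+* ZMod n := D.φ.liftOfSurjective D.φ_surj ⟨χ₀, hker⟩ with hεdef
  have hε : ∀ R, ε (D.φ R) = χ₀ R := fun R =>
    RingHom.liftOfRightInverse_comp_apply D.φ _ _ ⟨χ₀, hker⟩ R
  have hεsurj : Function.Surjective ε := by
    intro z
    obtain ⟨w, rfl⟩ := ZMod.intCast_surjective z
    refine ⟨D.φ (C w), ?_⟩
    rw [hε, hχ₀, RingHom.comp_apply, E.ev_C]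
    rfl
  have hkerε : RingHom.ker ε = Ideal.map D.φ I := by
    apply le_antisymm
    · intro t ht
      rw [RingHom.mem_ker] at ht
      obtain ⟨R, rfl⟩ := D.φ_surj t
      rw [hε, hχ₀, RingHom.comp_apply] at ht
      have hdiv : (n : ℤ) ∣ E.ev R := (ZMod.intCast_zmod_eq_zero_iff_dvd _ _).mp ht
      obtain ⟨w, hw⟩ := hdiv
      have h1 : R - C (E.ev R) ∈ I := by
        rw [hI, map_sub, E.ev_C, sub_self]
      have h2 : D.φ (C (E.ev R)) = (((n : ℕ) : ℤ) : T) * ((w : ℤ) : T) := by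
        have : (C (E.ev R) : MvPolynomial Nat.Primes ℤ) =
            ((E.ev R : ℤ) : MvPolynomial Nat.Primes ℤ) :=
          eq_intCast (C : ℤ →+* MvPolynomial Nat.Primes ℤ) _
        rw [this, map_intCast, hw]
        push_cast
        ring
      have h3 : D.φ R = D.φ (R - C (E.ev R)) + D.φ (C (E.ev R)) := by
        rw [← map_add]; congr 1; ring
      rw [h3, h2]
      exact Ideal.add_mem _ (Ideal.mem_map_of_mem _ h1)
        (Ideal.mul_mem_right _ _ (natCast_mem D E I hI hn hUB))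
    · rw [Ideal.map_le_iff_le_comap]
      intro R hR
      rw [Ideal.mem_comap, RingHom.mem_ker, hε, hχ₀, RingHom.comp_apply, (hI R).mp hR]
      simp
  rw [← hkerε, Nat.card_congr (RingHom.quotientKerEquivOfSurjective hεsurj).toEquiv,
    Nat.card_zmod]

end Card

end Main

end Fermat.Agent.S16.H77
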